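import Fermat.Agent.Root.SummaryEllentuck
import Mathlib.Topology.Order.LiminfLimsup
import Mathlib.Topology.Algebra.Order.LiminfLimsup
import Mathlib.Data.Nat.Nth

/-!
# Independence or convergence

Among a sequence of bounded real functions either a subsequence converges pointwise, or a
subsequence has for two numbers `r < s` all the finite sign patterns.  Whether the values alternate
along a set of indices is a closed condition on the set, so Ramsey's theorem in the form of Galvin
and Prikry decides between the two cases.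
-/

set_option autoImplicit false

universe u

namespace FA.RosenthalEllOne

open Set Filter Topology MeasureTheory

variable {S : Type u}

/-- All finite patterns of values below `r` and above `s` occur. -/
def IsIndependent (f : ℕ → S → ℝ) (r s : ℝ) : Prop :=
  ∀ (F : Finset ℕ) (σ : ℕ → Bool), ∃ x, ∀ n ∈ F,
    (σ n = false → f n x < r) ∧ (σ n = true → s < f n x)

/-- The sets of indices along which values below `r` and above `s` can alternate, up to any
bound. -/
def alternating (f : ℕ → S → ℝ) (r s : ℝ) : Set (ℕ → Bool) :=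
  {χ | ∀ N, ∃ x, ∀ m < N, χ m = true →
    (Even (Nat.count (fun j => χ j = true) m) → f m x < r) ∧
      (Odd (Nat.count (fun j => χ j = true) m) → s < f m x)}

theorem isClosed_alternating (f : ℕ → S → ℝ) (r s : ℝ) : IsClosed (alternating f r s) := by
  rw [alternating, ofPred_forall]
  refine isClosed_iInter fun N => ?_
  convert (isClosed_discrete {v : Fin N → Bool | ∃ x, ∀ m : Fin N, v m = true →
      (Even (Nat.count (fun j => ∃ h : j < N, v ⟨j, h⟩ = true) m) → f m x < r) ∧
        (Odd (Nat.count (fun j => ∃ h : j < N, v ⟨j, h⟩ = true) m) → s < f m x)}).preimage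
    (continuous_pi fun m : Fin N => continuous_apply (A := fun _ => Bool) (m : ℕ)) using 1
  ext χ
  simp only [mem_ofPred_eq, mem_preimage, Fin.forall_iff]
  refine exists_congr fun x => forall₂_congr fun m hm => ?_
  rw [show Nat.count (fun j => ∃ _ : j < N, χ j = true) m = Nat.count (fun j => χ j = true) m from
    le_antisymm (Nat.count_mono_left fun j _ h => h.elim fun _ h => h)
      (by
        rw [Nat.count_eq_card_filter_range, Nat.count_eq_card_filter_range]
        refine Finset.card_le_card fun j hj => ?_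
        simp only [Finset.mem_filter, Finset.mem_range] at hj ⊢
        exact ⟨hj.1, hj.1.trans hm, hj.2⟩)]

variable {f : ℕ → S → ℝ} {r s : ℝ}

theorem boolIndicator_eq_true (C : Set ℕ) (m : ℕ) : C.boolIndicator m = true ↔ m ∈ C :=
  (mem_iff_boolIndicator C m).symm

open Classical in
/-- Counting members of a set below one of its possible values. -/
theorem count_comp {e : ℕ → ℕ} (he : StrictMono e) {C : Set ℕ} (hC : C ⊆ range e) (j : ℕ) :
    Nat.count (fun m => m ∈ C) (e j) = Nat.count (fun i => e i ∈ C) j := by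
  symm
  rw [Nat.count_eq_card_filter_range, Nat.count_eq_card_filter_range,
    ← Finset.card_image_of_injective _ he.injective]
  congr 1
  ext m
  simp only [Finset.mem_filter, Finset.mem_range, Finset.mem_image]
  constructor
  · rintro ⟨i, ⟨hi, hiC⟩, rfl⟩
    exact ⟨he hi, hiC⟩
  · rintro ⟨hm, hmC⟩
    obtain ⟨i, rfl⟩ := hC hmC
    exact ⟨i, ⟨he.lt_iff_lt.1 hm, hmC⟩, rfl⟩

open Classical in
/-- If all sets of indices alternate, every second index gives independence. -/
theorem isIndependent_of_alternating {e : ℕ → ℕ} (he : StrictMono e)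
    (h : ∀ C ⊆ range e, C.Infinite → C.boolIndicator ∈ alternating f r s) :
    IsIndependent (fun n => f (e (2 * n + 1))) r s := by
  intro F σ
  let spare : ℕ → Bool := fun n => match n with
    | 0 => σ 0
    | n + 1 => σ (n + 1) == σ n
  let C : Set ℕ := e '' {j | j % 2 = 1 ∨ spare (j / 2) = true}
  have hCi : C.Infinite :=
    (infinite_of_injective_forall_mem (f := fun n => 2 * n + 1) (fun a b h => by
      simpa using h) fun n => .inl (by omega)).image he.injective.injOn
  have hmem : ∀ j, e j ∈ C ↔ (j % 2 = 1 ∨ spare (j / 2) = true) := fun j =>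
    he.injective.mem_set_image
  have hodd : ∀ n, e (2 * n + 1) ∈ C := fun n => (hmem _).2 (.inl (by omega))
  have heven : ∀ n, e (2 * n) ∈ C ↔ spare n = true := fun n => by
    rw [hmem, Nat.mul_div_cancel_left n two_pos]
    simp
  have key : ∀ n, (Odd (Nat.count (fun i => e i ∈ C) (2 * n + 1)) ↔ σ n = true) := by
    intro n
    induction n with
    | zero =>
      by_cases hs : e 0 ∈ C
      · have := (heven 0).1 hs
        simp [Nat.count_succ, hs, spare] at this ⊢
        exact this
      · have := mt (heven 0).2 hs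
        simp [Nat.count_succ, hs, spare] at this ⊢
        exact this
    | succ n ih =>
      rw [show 2 * (n + 1) + 1 = 2 * n + 1 + 1 + 1 by omega, Nat.count_succ, Nat.count_succ,
        if_pos (hodd n), show 2 * n + 1 + 1 = 2 * (n + 1) by omega]
      by_cases hs : e (2 * (n + 1)) ∈ C
      · have := (heven (n + 1)).1 hs
        simp only [spare, beq_iff_eq] at this
        rw [if_pos hs, this, ← ih, Nat.odd_add_one, Nat.not_odd_iff_even, Nat.even_add_one,
          Nat.not_even_iff_odd]
      · have := mt (heven (n + 1)).2 hs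
        simp only [spare, beq_iff_eq] at this
        rw [if_neg hs, add_zero, Nat.odd_add_one, ih]
        cases hσ : σ n <;> cases hσ' : σ (n + 1) <;> simp_all
  obtain ⟨x, hx⟩ := h C (image_subset_range _ _) hCi (F.sup (fun n => e (2 * n + 1)) + 1)
  refine ⟨x, fun n hn => ?_⟩
  have hlt := Nat.lt_succ_of_le (Finset.le_sup (f := fun n => e (2 * n + 1)) hn)
  have := hx _ hlt ((boolIndicator_eq_true _ _).2 (hodd n))
  simp only [boolIndicator_eq_true] at this
  rw [count_comp he (image_subset_range _ _)] at this
  refine ⟨fun h0 => this.1 (Nat.not_odd_iff_even.1 fun h1 => ?_), fun h1 => this.2 ((key n).2 h1)⟩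
  simp [(key n).1 h1] at h0

open Classical in
/-- If no set of indices alternates, no point takes values on both sides infinitely often. -/
theorem not_frequently_both {H : Set ℕ}
    (h : ∀ C ⊆ H, C.Infinite → C.boolIndicator ∉ alternating f r s) (x : S) :
    ¬({m ∈ H | f m x < r}.Infinite ∧ {m ∈ H | s < f m x}.Infinite) := by
  rintro ⟨hlo, hhi⟩
  let pick : ℕ → ℕ → Prop := fun j m => m ∈ H ∧ if Even j then f m x < r else s < f m x
  have hex : ∀ j N, ∃ m, N ≤ m ∧ pick j m := fun j N => by
    by_cases hj : Even j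
    · obtain ⟨m, hm, hNm⟩ := hlo.exists_gt N
      exact ⟨m, hNm.le, hm.1, by simp [hj, hm.2]⟩
    · obtain ⟨m, hm, hNm⟩ := hhi.exists_gt N
      exact ⟨m, hNm.le, hm.1, by simp [hj, hm.2]⟩
  choose next hnext hpick using hex
  let e : ℕ → ℕ := fun j => Nat.rec (next 0 0) (fun j m => next (j + 1) (m + 1)) j
  have he : StrictMono e := strictMono_nat_of_lt_succ fun j => hnext (j + 1) (e j + 1)
  have hp : ∀ j, pick j (e j) := fun j => by cases j <;> exact hpick _ _
  refine h (range e) (range_subset_iff.2 fun j => (hp j).1)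
    (infinite_range_of_injective he.injective) fun N => ⟨x, fun m _ hm => ?_⟩
  obtain ⟨j, rfl⟩ := (boolIndicator_eq_true _ _).1 hm
  simp only [boolIndicator_eq_true]
  rw [count_comp he subset_rfl, Nat.count_of_forall (fun i _ => mem_range_self i)]
  have := (hp j).2
  exact ⟨fun hj => by simpa [hj] using this, fun hj => by
    simpa [Nat.not_even_iff_odd.2 hj] using this⟩

/-- **Rosenthal's dichotomy.** A pointwise bounded sequence of functions has a subsequence which
converges pointwise or one which is independent for two numbers. -/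
theorem exists_tendsto_or_independent (f : ℕ → S → ℝ) (hb : ∀ x, ∃ c, ∀ n, |f n x| ≤ c) :
    (∃ g : ℕ → ℕ, StrictMono g ∧ ∀ x, ∃ l, Tendsto (fun n => f (g n) x) atTop (𝓝 l)) ∨
      ∃ g : ℕ → ℕ, StrictMono g ∧ ∃ r s : ℝ, r < s ∧ IsIndependent (fun n => f (g n)) r s := by
  classical
  by_contra! hno
  obtain ⟨hconv, hind⟩ := hno
  have : PolishSpace (ℕ → Bool) := ⟨⟩
  obtain ⟨q, hq⟩ := exists_surjective_nat (ℚ × ℚ)
  -- refine so that the pairs of rationals are handled one after the other
  have hstep : ∀ (H : {H : Set ℕ // H.Infinite}) (k : ℕ), ∃ H' : {H : Set ℕ // H.Infinite},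
      H'.1 ⊆ H.1 ∧ ∀ x, ((q k).1 : ℝ) < (q k).2 →
        ¬({m ∈ H'.1 | f m x < (q k).1}.Infinite ∧ {m ∈ H'.1 | ((q k).2 : ℝ) < f m x}.Infinite) := by
    rintro ⟨H, hH⟩ k
    obtain ⟨H', hH'H, hH', h | h⟩ := Ellentuck.analytic_ramsey
      (isClosed_alternating f (q k).1 (q k).2).analyticSet hH
    · refine ⟨⟨H', hH'⟩, hH'H, fun x hqk => absurd ?_ (hind
        (fun n => Nat.nth (· ∈ H') (2 * n + 1))
        (fun a b hab => Nat.nth_strictMono hH' (by omega)) _ _ hqk)⟩
      exact isIndependent_of_alternating (Nat.nth_strictMono hH') fun C hC => h C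
        (hC.trans (range_subset_iff.2 (Nat.nth_mem_of_infinite hH')))
    · exact ⟨⟨H', hH'⟩, hH'H, fun x _ => not_frequently_both h x⟩
  choose next hsub hnext using hstep
  let H : ℕ → {H : Set ℕ // H.Infinite} := fun k =>
    Nat.rec ⟨univ, infinite_univ⟩ (fun k H => next H k) k
  have hmono : ∀ k l, k ≤ l → (H l).1 ⊆ (H k).1 := fun k l h => by
    induction h with
    | refl => exact subset_rfl
    | step _ ih => exact (hsub _ _).trans ih
  choose pick hmem hgt using fun k N => (H k).2.exists_gt N
  let g : ℕ → ℕ := fun n => Nat.rec (pick 1 0) (fun n m => pick (n + 2) m) n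
  have hg : StrictMono g := strictMono_nat_of_lt_succ fun n => hgt (n + 2) (g n)
  have hgm : ∀ n, g n ∈ (H (n + 1)).1 := fun n => by
    cases n with
    | zero => exact hmem 1 0
    | succ n => exact hmem (n + 2) (g n)
  obtain ⟨x, hx⟩ := hconv g hg
  obtain ⟨c, hc⟩ := hb x
  refine hx _ (tendsto_of_no_upcrossings (s := range ((↑) : ℚ → ℝ)) Rat.denseRange_cast
    ?_ ?_ ?_).choose_spec
  · rintro _ ⟨a, rfl⟩ _ ⟨b, rfl⟩ hab ⟨ha, hb'⟩
    obtain ⟨k, hk⟩ := hq (a, b)
    have hlate : ∀ n, k ≤ n → g n ∈ (next (H k) k).1 := fun n hn =>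
      hmono (k + 1) (n + 1) (by omega) (hgm n)
    refine hnext (H k) k x (by rw [hk]; exact hab) ⟨?_, ?_⟩
    · refine infinite_of_forall_exists_gt fun N => ?_
      obtain ⟨n, hn, hna⟩ := (frequently_atTop.1 ha) (max k (N + 1))
      exact ⟨g n, ⟨hlate n ((le_max_left _ _).trans hn), by simpa [hk] using hna⟩,
        lt_of_lt_of_le ((le_max_right _ _).trans hn) (hg.id_le n)⟩
    · refine infinite_of_forall_exists_gt fun N => ?_
      obtain ⟨n, hn, hna⟩ := (frequently_atTop.1 hb') (max k (N + 1))
      exact ⟨g n, ⟨hlate n ((le_max_left _ _).trans hn), by simpa [hk] using hna⟩,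
        lt_of_lt_of_le ((le_max_right _ _).trans hn) (hg.id_le n)⟩
  · exact isBoundedUnder_of ⟨c, fun n => (le_abs_self _).trans (hc (g n))⟩
  · exact isBoundedUnder_of ⟨-c, fun n => (neg_le.1 ((neg_le_abs _).trans (hc (g n))))⟩

end FA.RosenthalEllOne
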