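import Fermat.Agent.RosenthalEllOne.Oscillation
import Mathlib.Analysis.Normed.Module.HahnBanach
import Mathlib.Analysis.Normed.Lp.lpSpace

/-!
# Weakly Cauchy sequences and copies of `ℓ¹`

Independence of the functionals of the dual ball on a sequence of vectors bounds norms of linear
combinations from below by a multiple of the sum of the absolute values of the coefficients.
-/

set_option autoImplicit false

universe u

namespace FA.RosenthalEllOne

open Set Filter Topology

variable {E : Type u} [NormedAddCommGroup E] [NormedSpace ℝ E]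

/-- Every functional converges along the sequence. -/
def IsWeaklyCauchy (v : ℕ → E) : Prop :=
  ∀ φ : StrongDual ℝ E, ∃ l, Tendsto (fun n => φ (v n)) atTop (𝓝 l)

/-- The sequence dominates the unit vector basis of `ℓ¹`.  For bounded sequences this is
equivalence with it. -/
def IsEllOneBasis (v : ℕ → E) : Prop :=
  ∃ δ > 0, ∀ (F : Finset ℕ) (c : ℕ → ℝ), δ * ∑ n ∈ F, |c n| ≤ ‖∑ n ∈ F, c n • v n‖

/-- Independence in the dual ball gives the lower bound. -/
theorem isEllOneBasis_of_isIndependent {v : ℕ → E} {r s : ℝ} (hrs : r < s)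
    (h : IsIndependent (fun n (φ : {φ : StrongDual ℝ E // ‖φ‖ ≤ 1}) => φ.1 (v n)) r s) :
    IsEllOneBasis v := by
  refine ⟨(s - r) / 2, by linarith, fun F c => ?_⟩
  obtain ⟨x, hx⟩ := h F fun n => decide (0 ≤ c n)
  obtain ⟨y, hy⟩ := h F fun n => !decide (0 ≤ c n)
  have hle : ∀ φ : {φ : StrongDual ℝ E // ‖φ‖ ≤ 1},
      |φ.1 (∑ n ∈ F, c n • v n)| ≤ ‖∑ n ∈ F, c n • v n‖ := fun φ =>
    (φ.1.le_opNorm _).trans (mul_le_of_le_one_left (norm_nonneg _) φ.2)
  have hsum : (s - r) * ∑ n ∈ F, |c n| ≤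
      x.1 (∑ n ∈ F, c n • v n) - y.1 (∑ n ∈ F, c n • v n) := by
    simp only [map_sum, map_smul, smul_eq_mul, Finset.mul_sum, ← Finset.sum_sub_distrib]
    refine Finset.sum_le_sum fun n hn => ?_
    rcases le_or_gt 0 (c n) with hc | hc
    · have h1 := (hx n hn).2 (by simp [hc])
      have h2 := (hy n hn).1 (by simp [hc])
      rw [abs_of_nonneg hc]
      nlinarith [mul_le_mul_of_nonneg_left h1.le hc, mul_le_mul_of_nonneg_left h2.le hc]
    · have h1 := (hx n hn).1 (by simp [hc])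
      have h2 := (hy n hn).2 (by simp [hc])
      rw [abs_of_neg hc]
      nlinarith [mul_le_mul_of_nonpos_left h1.le hc.le, mul_le_mul_of_nonpos_left h2.le hc.le]
  have h1 := (abs_le.1 (hle x)).2
  have h2 := (abs_le.1 (hle y)).1
  linarith

/-- **Rosenthal.** -/
theorem exists_weaklyCauchy_or_ellOne {v : ℕ → E} {C : ℝ} (hv : ∀ n, ‖v n‖ ≤ C) :
    (∃ g : ℕ → ℕ, StrictMono g ∧ IsWeaklyCauchy fun n => v (g n)) ∨
      ∃ g : ℕ → ℕ, StrictMono g ∧ IsEllOneBasis fun n => v (g n) := by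
  rcases exists_tendsto_or_independent
    (fun n (φ : {φ : StrongDual ℝ E // ‖φ‖ ≤ 1}) => φ.1 (v n)) (fun φ =>
      ⟨C, fun n => ((φ.1.le_opNorm _).trans
        (mul_le_of_le_one_left (norm_nonneg _) φ.2)).trans (hv n)⟩) with
    ⟨g, hg, h⟩ | ⟨g, hg, r, s, hrs, h⟩
  · refine .inl ⟨g, hg, fun φ => ?_⟩
    have hpos : 0 < ‖φ‖ + 1 := by positivity
    obtain ⟨l, hl⟩ := h ⟨(‖φ‖ + 1)⁻¹ • φ, by
      rw [norm_smul, norm_inv, Real.norm_of_nonneg hpos.le, inv_mul_le_iff₀ hpos]
      linarith⟩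
    refine ⟨(‖φ‖ + 1) * l, ?_⟩
    convert hl.const_mul (‖φ‖ + 1) using 2 with n
    simp [hpos.ne']
  · exact .inr ⟨g, hg, isEllOneBasis_of_isIndependent hrs h⟩

theorem IsEllOneBasis.comp {v : ℕ → E} (h : IsEllOneBasis v) {g : ℕ → ℕ}
    (hg : Function.Injective g) : IsEllOneBasis fun n => v (g n) := by
  classical
  obtain ⟨δ, hδ, h⟩ := h
  refine ⟨δ, hδ, fun F c => ?_⟩
  have := h (F.image g) (Function.extend g c 0)
  simpa [Finset.sum_image hg.injOn, hg.extend_apply] using this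

/-- The functional with alternating values. -/
theorem IsEllOneBasis.exists_functional {v : ℕ → E} (h : IsEllOneBasis v) {ε : ℕ → ℝ}
    (hε : ∀ n, |ε n| ≤ 1) : ∃ φ : StrongDual ℝ E, ∀ n, φ (v n) = ε n := by
  obtain ⟨δ, hδ, h⟩ := h
  have hb : ∀ c : ℕ →₀ ℝ,
      |Finsupp.linearCombination ℝ ε c| ≤ δ⁻¹ * ‖Finsupp.linearCombination ℝ v c‖ := fun c => by
    rw [Finsupp.linearCombination_apply, Finsupp.linearCombination_apply, Finsupp.sum,
      Finsupp.sum, le_inv_mul_iff₀ hδ]
    refine le_trans ?_ (h c.support c)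
    refine mul_le_mul_of_nonneg_left ((Finset.abs_sum_le_sum_abs _ _).trans
      (Finset.sum_le_sum fun n _ => ?_)) hδ.le
    rw [smul_eq_mul, abs_mul]
    exact mul_le_of_le_one_right (abs_nonneg _) (hε n)
  have hinj : Function.Injective (Finsupp.linearCombination ℝ v) := by
    rw [injective_iff_map_eq_zero]
    intro c hc
    have := h c.support c
    rw [Finsupp.linearCombination_apply, Finsupp.sum] at hc
    rw [hc, norm_zero] at this
    ext n
    by_contra hn
    have := (Finset.sum_eq_zero_iff_of_nonneg fun i _ => abs_nonneg (c i)).1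
      (le_antisymm (nonpos_of_mul_nonpos_right this hδ)
        (Finset.sum_nonneg fun i _ => abs_nonneg (c i))) n (Finsupp.mem_support_iff.2 hn)
    exact hn (abs_eq_zero.1 this)
  let T := LinearEquiv.ofInjective (Finsupp.linearCombination ℝ v) hinj
  let ψ : StrongDual ℝ (LinearMap.range (Finsupp.linearCombination ℝ v)) :=
    LinearMap.mkContinuous ((Finsupp.linearCombination ℝ ε).comp T.symm.toLinearMap) δ⁻¹ fun x => by
      obtain ⟨c, rfl⟩ := T.surjective x
      simpa [T] using hb c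
  obtain ⟨φ, hφ, -⟩ := exists_extension_norm_eq _ ψ
  refine ⟨φ, fun n => ?_⟩
  have := hφ (T (Finsupp.single n 1))
  simpa [ψ, T] using this

/-- No subsequence of such a sequence is weakly Cauchy. -/
theorem IsEllOneBasis.not_isWeaklyCauchy {v : ℕ → E} (h : IsEllOneBasis v) {g : ℕ → ℕ}
    (hg : StrictMono g) : ¬IsWeaklyCauchy fun n => v (g n) := by
  intro hw
  obtain ⟨φ, hφ⟩ := (h.comp hg.injective).exists_functional (ε := fun n => (-1) ^ n) (by simp)
  obtain ⟨l, hl⟩ := hw φ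
  simp only [hφ] at hl
  have h1 := tendsto_nhds_unique (hl.comp (tendsto_id.const_mul_atTop' (r := 2) two_pos))
    (by simp [Function.comp_def, pow_mul] : Tendsto _ atTop (𝓝 (1 : ℝ)))
  have h2 := tendsto_nhds_unique
    (hl.comp ((tendsto_add_atTop_nat 1).comp (tendsto_id.const_mul_atTop' (r := 2) two_pos)))
    (by simp [Function.comp_def, pow_mul, pow_add] : Tendsto _ atTop (𝓝 (-1 : ℝ)))
  linarith

/-- In a complete space the sequence spans a copy of `ℓ¹`. -/
theorem IsEllOneBasis.exists_embedding [CompleteSpace E] {v : ℕ → E} (h : IsEllOneBasis v)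
    {C : ℝ} (hv : ∀ n, ‖v n‖ ≤ C) :
    ∃ T : lp (fun _ : ℕ => ℝ) 1 →L[ℝ] E, ∃ δ > 0, ∀ c, δ * ‖c‖ ≤ ‖T c‖ := by
  obtain ⟨δ, hδ, h⟩ := h
  have hone : 0 < (1 : ENNReal).toReal := by simp
  have habs : ∀ c : lp (fun _ : ℕ => ℝ) 1, HasSum (fun n => |c n|) ‖c‖ := fun c => by
    simpa using lp.hasSum_norm hone c
  have hsum : ∀ c : lp (fun _ : ℕ => ℝ) 1, HasSum (fun n => c n • v n) (∑' n, c n • v n) :=
    fun c => (Summable.of_norm_bounded ((habs c).summable.mul_right C) fun n => by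
      rw [norm_smul, Real.norm_eq_abs]
      exact mul_le_mul_of_nonneg_left (hv n) (abs_nonneg _)).hasSum
  let L : lp (fun _ : ℕ => ℝ) 1 →ₗ[ℝ] E :=
    { toFun := fun c => ∑' n, c n • v n
      map_add' := fun c d => by
        simp only [lp.coeFn_add, Pi.add_apply, add_smul]
        exact ((hsum c).add (hsum d)).tsum_eq
      map_smul' := fun a c => by
        simp only [lp.coeFn_smul, Pi.smul_apply, smul_eq_mul, mul_smul, RingHom.id_apply]
        exact ((hsum c).const_smul a).tsum_eq }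
  refine ⟨L.mkContinuous C fun c => ?_, δ, hδ, fun c => ?_⟩
  · refine tsum_of_norm_bounded ((habs c).mul_left C) fun n => ?_
    rw [norm_smul, Real.norm_eq_abs, mul_comm C]
    exact mul_le_mul_of_nonneg_left (hv n) (abs_nonneg _)
  · exact le_of_tendsto_of_tendsto' ((habs c).const_mul δ |>.comp tendsto_id)
      ((hsum c).norm) fun F => by simpa [Finset.mul_sum] using h F c

/-- The images of the unit vectors under an embedding of `ℓ¹`. -/
theorem exists_ellOne_of_embedding (T : lp (fun _ : ℕ => ℝ) 1 →L[ℝ] E) {δ : ℝ} (hδ : 0 < δ)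
    (hT : ∀ c, δ * ‖c‖ ≤ ‖T c‖) : ∃ v : ℕ → E, (∀ n, ‖v n‖ ≤ ‖T‖) ∧ IsEllOneBasis v := by
  refine ⟨fun n => T (lp.single 1 n 1), fun n => ?_, δ, hδ, fun F c => ?_⟩
  · refine (T.le_opNorm _).trans (le_of_eq ?_)
    rw [lp.norm_single (by simp)]
    simp
  · have h1 := hT (∑ n ∈ F, lp.single 1 n (c n))
    have h2 := lp.norm_sum_single (E := fun _ : ℕ => ℝ) (p := 1) (by simp) c F
    simp only [ENNReal.toReal_one, Real.rpow_one, Real.norm_eq_abs] at h2
    rw [h2, map_sum] at h1
    refine h1.trans_eq (congrArg _ (Finset.sum_congr rfl fun n _ => ?_))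
    rw [← map_smul, ← lp.single_smul, smul_eq_mul, mul_one]

end FA.RosenthalEllOne
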